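import Mathlib

/-!
# The rational points of `y² = h (h² + 22 h + 125)`
-/

set_option autoImplicit false

namespace Fermat.Agent.H23.K1

theorem mod5 {x y : ℤ} (h : (5 : ℤ) ∣ 2 * x ^ 2 - y ^ 2) : (5 : ℤ) ∣ x ∧ (5 : ℤ) ∣ y := by
  have key : ∀ a b : ZMod 5, 2 * a ^ 2 - b ^ 2 = 0 → a = 0 ∧ b = 0 := by decide
  have h1 := (ZMod.intCast_zmod_eq_zero_iff_dvd (2 * x ^ 2 - y ^ 2) 5).2 h
  push_cast at h1
  obtain ⟨h2, h3⟩ := key _ _ h1
  exact ⟨(ZMod.intCast_zmod_eq_zero_iff_dvd x 5).1 h2, (ZMod.intCast_zmod_eq_zero_iff_dvd y 5).1 h3⟩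

theorem prime5 : Prime (5 : ℤ) := by
  have := Nat.prime_iff_prime_int.1 (by norm_num : Nat.Prime 5)
  exact_mod_cast this

/-- coprimality from primes -/
theorem cop {x y : ℤ} (h0 : x ≠ 0) (H : ∀ z : ℤ, Prime z → z ∣ x → z ∣ y → False) :
    IsCoprime x y :=
  isCoprime_of_prime_dvd (fun h => h0 h.1) fun z hz h1 h2 => H z hz h1 h2

theorem cop_false {x y z : ℤ} (h : IsCoprime x y) (hz : Prime z) (h1 : z ∣ x) (h2 : z ∣ y) :
    False := hz.not_isUnit (h.isUnit_of_dvd' h1 h2)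

theorem sq_of_mul {a b k : ℤ} (hab : IsCoprime a b) (ha : 0 < a) (h : a * b = k ^ 2) :
    ∃ r : ℤ, a = r ^ 2 := by
  obtain ⟨d, hd⟩ := exists_associated_pow_of_mul_eq_pow' hab h
  rcases Int.associated_iff.1 hd with h1 | h1
  · exact ⟨d, h1.symm⟩
  · exfalso
    have := sq_nonneg d
    omega

theorem fourth_of_mul {a b k : ℤ} (hab : IsCoprime a b) (ha : 0 < a) (h : a * b = k ^ 4) :
    ∃ r : ℤ, a = r ^ 4 := by
  obtain ⟨d, hd⟩ := exists_associated_pow_of_mul_eq_pow' hab h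
  rcases Int.associated_iff.1 hd with h1 | h1
  · exact ⟨d, h1.symm⟩
  · exfalso
    have : 0 ≤ d ^ 4 := by positivity
    omega

/-- from `125 k⁴ = α β` with `α, β` coprime positive. -/
theorem split125 {a b k : ℤ} (hab : IsCoprime a b) (ha : 0 < a) (hb : 0 < b)
    (h : a * b = 125 * k ^ 4) :
    ∃ r s : ℤ, IsCoprime r s ∧ r ^ 2 * s ^ 2 = k ^ 2 ∧ a + b = r ^ 4 + 125 * s ^ 4 := by
  -- `125 ∣ a` or `125 ∣ b`
  have h5 : ∀ a b : ℤ, IsCoprime a b → 0 < a → 0 < b → a * b = 125 * k ^ 4 → (5 : ℤ) ∣ b →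
      ∃ r s : ℤ, IsCoprime r s ∧ r ^ 2 * s ^ 2 = k ^ 2 ∧ a + b = r ^ 4 + 125 * s ^ 4 := by
    intro a b hab ha hb h h5b
    have h5a : IsCoprime (125 : ℤ) a := by
      have : IsCoprime (5 : ℤ) a := by
        rw [prime5.coprime_iff_not_dvd]
        intro h5a
        exact cop_false hab prime5 h5a h5b
      have h3 : (125 : ℤ) = 5 ^ 3 := by norm_num
      rw [h3]
      exact this.pow_left
    obtain ⟨b', rfl⟩ : (125 : ℤ) ∣ b := h5a.dvd_of_dvd_mul_left (Dvd.intro _ h.symm)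
    have hb' : 0 < b' := by omega
    have h' : a * b' = k ^ 4 := by linarith
    have hab' : IsCoprime a b' := hab.of_isCoprime_of_dvd_right (Dvd.intro_left _ rfl)
    obtain ⟨r, hr⟩ := fourth_of_mul hab' ha h'
    obtain ⟨s, hs⟩ := fourth_of_mul hab'.symm hb' (by rw [mul_comm]; exact h')
    refine ⟨r, s, ?_, ?_, by rw [hr, hs]⟩
    · rw [hr, hs] at hab'
      exact (IsCoprime.pow_iff (by norm_num) (by norm_num)).1 hab'
    · rw [hr, hs] at h'
      have h1 : (r ^ 2 * s ^ 2) ^ 2 = (k ^ 2) ^ 2 := by linear_combination h'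
      exact (pow_left_inj₀ (by positivity) (by positivity) (by norm_num)).1 h1
  have hdvd : (5 : ℤ) ∣ a * b := ⟨25 * k ^ 4, by rw [h]; ring⟩
  rcases prime5.dvd_or_dvd hdvd with h1 | h1
  · obtain ⟨r, s, hrs, h2, h3⟩ := h5 b a hab.symm hb ha (by rw [mul_comm]; exact h) h1
    exact ⟨r, s, hrs, h2, by rw [add_comm]; exact h3⟩
  · exact h5 a b hab ha hb h h1

/-- First half of the descent. -/
theorem step1 {X Y Z : ℤ} (hXY : IsCoprime X Y) (hY : Y ≠ 0)
    (h : X ^ 4 + 22 * X ^ 2 * Y ^ 2 + 125 * Y ^ 4 = Z ^ 2) :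
    ∃ p q : ℤ, IsCoprime p q ∧ p ^ 2 * q ^ 2 = Y ^ 2 ∧
      X ^ 2 = p ^ 4 - 11 * p ^ 2 * q ^ 2 - q ^ 4 := by
  have hY2 : 0 < Y ^ 2 := by positivity
  have hZ0 : Z ≠ 0 := by
    rintro rfl
    have : 0 < Y ^ 4 := by positivity
    nlinarith [sq_nonneg (X * Y), sq_nonneg (X ^ 2)]
  have hcop : ∀ c : ℤ, ∀ z : ℤ, Prime z → z ∣ Y → z ∣ X ^ 2 + 11 * Y ^ 2 → False := by
    intro _ z hz h1 h2
    have h3 : z ∣ X ^ 2 := by
      have := dvd_sub h2 (dvd_mul_of_dvd_right (dvd_pow h1 two_ne_zero) 11)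
      rwa [add_sub_cancel_right] at this
    exact cop_false hXY hz (hz.dvd_of_dvd_pow h3) h1
  -- the main construction
  have key : ∀ m n : ℤ, IsCoprime m n → 0 < m → 0 < n → m * n = Y ^ 2 →
      X ^ 2 + 11 * Y ^ 2 = m ^ 2 - n ^ 2 → ∃ p q : ℤ, IsCoprime p q ∧ p ^ 2 * q ^ 2 = Y ^ 2 ∧
      X ^ 2 = p ^ 4 - 11 * p ^ 2 * q ^ 2 - q ^ 4 := by
    intro m n hmn hm hn h1 h2
    obtain ⟨p, hp⟩ := sq_of_mul hmn hm h1
    obtain ⟨q, hq⟩ := sq_of_mul hmn.symm hn (by rw [mul_comm]; exact h1)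
    subst hp hq
    refine ⟨p, q, (IsCoprime.pow_iff (by norm_num) (by norm_num)).1 hmn, h1, ?_⟩
    linear_combination h2 + 11 * h1
  rcases Int.even_or_odd Y with hYe | hYo
  · -- Y even, X odd
    have hXo : Odd X := by
      rw [← Int.not_even_iff_odd]
      intro hXe
      exact cop_false hXY Int.prime_two hXe.two_dvd hYe.two_dvd
    have hao : Odd (X ^ 2 + 11 * Y ^ 2) := by
      have : Even (11 * Y ^ 2) := (hYe.pow_of_ne_zero two_ne_zero).mul_left 11
      exact hXo.pow.add_even this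
    have hpt : PythagoreanTriple (X ^ 2 + 11 * Y ^ 2) (2 * Y ^ 2) |Z| := by
      change (X ^ 2 + 11 * Y ^ 2) * (X ^ 2 + 11 * Y ^ 2) + (2 * Y ^ 2) * (2 * Y ^ 2) = |Z| * |Z|
      rw [abs_mul_abs_self]
      linear_combination h
    have hg : Int.gcd (X ^ 2 + 11 * Y ^ 2) (2 * Y ^ 2) = 1 := by
      rw [← Int.isCoprime_iff_gcd_eq_one]
      apply cop (by nlinarith [sq_nonneg X])
      intro z hz h1 h2
      rcases hz.dvd_or_dvd h2 with h3 | h3
      · have h4 : (2 : ℤ) ∣ X ^ 2 + 11 * Y ^ 2 :=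
          ((hz.associated_of_dvd Int.prime_two h3).symm.dvd).trans h1
        rw [← Int.not_even_iff_odd] at hao
        exact hao (even_iff_two_dvd.2 h4)
      · exact hcop 0 z hz (hz.dvd_of_dvd_pow h3) h1
    obtain ⟨m, n, e1, e2, -, e4, -, e6⟩ := hpt.coprime_classification' hg
      (Int.odd_iff.1 hao) (abs_pos.2 hZ0)
    have hmn : m * n = Y ^ 2 := by linarith
    have hm : 0 < m := by
      rcases e6.lt_or_eq with h1 | h1
      · exact h1
      · rw [← h1, zero_mul] at hmn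
        omega
    have hn : 0 < n := by
      rw [← hmn] at hY2
      exact (pos_iff_pos_of_mul_pos hY2).1 hm
    exact key m n (Int.isCoprime_iff_gcd_eq_one.2 e4) hm hn hmn e1
  · -- Y odd
    have hXo : Odd X := by
      rw [← Int.not_even_iff_odd]
      rintro ⟨c, hc⟩
      obtain ⟨d, hd⟩ := hYo
      have key8 : ∀ a b e : ZMod 8, (a + a) ^ 4 + 22 * (a + a) ^ 2 * (2 * b + 1) ^ 2 +
          125 * (2 * b + 1) ^ 4 ≠ e ^ 2 := by decide
      apply key8 (c : ZMod 8) (d : ZMod 8) (Z : ZMod 8)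
      have h2 := congrArg (Int.cast : ℤ → ZMod 8) h
      rw [hc, hd] at h2
      push_cast at h2
      exact h2
    obtain ⟨c, hc⟩ := hXo
    obtain ⟨d, hd⟩ := id hYo
    -- `a' = (X² + 11 Y²)/2`
    obtain ⟨a, ha⟩ : ∃ a, X ^ 2 + 11 * Y ^ 2 = 2 * a :=
      ⟨2 * c ^ 2 + 2 * c + 22 * d ^ 2 + 22 * d + 6, by rw [hc, hd]; ring⟩
    have hZe : Even Z := by
      have h2 : Even (Z ^ 2) := by
        rw [← h]
        refine ⟨2 * a ^ 2 + 2 * Y ^ 4, ?_⟩
        linear_combination (X ^ 2 + 11 * Y ^ 2 + 2 * a) * ha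
      rwa [Int.even_pow' two_ne_zero] at h2
    obtain ⟨z, hz⟩ := hZe
    have hz0 : z ≠ 0 := by
      rintro rfl
      apply hZ0
      rw [hz, add_zero]
    have hpt : PythagoreanTriple (Y ^ 2) a |z| := by
      change Y ^ 2 * Y ^ 2 + a * a = |z| * |z|
      rw [abs_mul_abs_self]
      have h3 : 4 * (Y ^ 2 * Y ^ 2 + a * a) = 4 * (z * z) := by
        rw [hz] at h
        linear_combination h - (X ^ 2 + 11 * Y ^ 2 + 2 * a) * ha
      linarith
    have hg : Int.gcd (Y ^ 2) a = 1 := by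
      rw [← Int.isCoprime_iff_gcd_eq_one]
      apply cop hY2.ne'
      intro z hz h1 h2
      refine hcop 0 z hz (hz.dvd_of_dvd_pow h1) ?_
      rw [ha]
      exact dvd_mul_of_dvd_right h2 2
    have hYo2 : Y ^ 2 % 2 = 1 := Int.odd_iff.1 hYo.pow
    obtain ⟨m, n, e1, e2, -, e4, -, e6⟩ := hpt.coprime_classification' hg hYo2 (abs_pos.2 hz0)
    -- m + n, m - n
    have hmn : (m + n) * (m - n) = Y ^ 2 := by rw [e1]; ring
    have hpos : 0 < m + n ∧ 0 < m - n := by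
      rw [← hmn] at hY2
      rcases pos_and_pos_or_neg_and_neg_of_mul_pos hY2 with h1 | h1
      · exact h1
      · omega
    have hcop2 : IsCoprime (m + n) (m - n) := by
      apply cop hpos.1.ne'
      intro z hz h1 h2
      have h3 : z ∣ 2 * m := by
        have := dvd_add h1 h2
        rwa [show m + n + (m - n) = 2 * m by ring] at this
      have h4 : z ∣ 2 * n := by
        have := dvd_sub h1 h2
        rwa [show m + n - (m - n) = 2 * n by ring] at this
      have h5 : ¬ z ∣ 2 := by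
        intro h6
        have h7 : (2 : ℤ) ∣ m + n := ((hz.associated_of_dvd Int.prime_two h6).symm.dvd).trans h1
        have h8 : (2 : ℤ) ∣ Y ^ 2 := by rw [← hmn]; exact dvd_mul_of_dvd_left h7 _
        omega
      exact cop_false (Int.isCoprime_iff_gcd_eq_one.2 e4) hz
        ((hz.dvd_or_dvd h3).resolve_left h5) ((hz.dvd_or_dvd h4).resolve_left h5)
    obtain ⟨p, hp⟩ := sq_of_mul hcop2 hpos.1 hmn
    obtain ⟨q, hq⟩ := sq_of_mul hcop2.symm hpos.2 (by rw [mul_comm]; exact hmn)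
    refine ⟨p, q, ?_, by rw [← hp, ← hq]; exact hmn, ?_⟩
    · rw [hp, hq] at hcop2
      exact (IsCoprime.pow_iff (by norm_num) (by norm_num)).1 hcop2
    · have h1 : X ^ 2 + 11 * Y ^ 2 = (m + n) ^ 2 - (m - n) ^ 2 := by
        rw [ha, e2]; ring
      rw [hp, hq] at h1 hmn
      linear_combination h1 + 11 * hmn

theorem val_sub_ne {u v : ℤ} (huv : IsCoprime u v) (h : (5 : ℤ) ∣ u ^ 2 - 22 * v ^ 2) : False := by
  have h1 : (5 : ℤ) ∣ 2 * v ^ 2 - u ^ 2 := by
    have h2 : 2 * v ^ 2 - u ^ 2 = -(u ^ 2 - 22 * v ^ 2) - 5 * (4 * v ^ 2) := by ring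
    rw [h2]
    exact dvd_sub (dvd_neg.2 h) (dvd_mul_right _ _)
  obtain ⟨h2, h3⟩ := mod5 h1
  exact cop_false huv prime5 h3 h2

/-- Second half of the descent. -/
theorem step2 {u v w : ℤ} (huv : IsCoprime u v) (hv : v ≠ 0)
    (h : w ^ 2 = u ^ 4 - 11 * u ^ 2 * v ^ 2 - v ^ 4) :
    ∃ r s Z : ℤ, IsCoprime r s ∧ s ≠ 0 ∧ s ^ 2 ≤ v ^ 2 ∧
      r ^ 4 + 22 * r ^ 2 * s ^ 2 + 125 * s ^ 4 = Z ^ 2 := by
  have hv2 : 0 < v ^ 2 := by positivity
  have hu : u ≠ 0 := by
    rintro rfl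
    have : 0 < v ^ 4 := by positivity
    nlinarith [sq_nonneg w]
  have hu2 : 0 < u ^ 2 := by positivity
  have hbig : 11 * v ^ 2 < u ^ 2 := by
    by_contra hcon
    push Not at hcon
    have h1 : 0 < v ^ 4 := by positivity
    nlinarith [sq_nonneg w, mul_nonneg hu2.le (sub_nonneg.2 hcon)]
  have hsle : ∀ r s k : ℤ, k ≠ 0 → r ^ 2 * s ^ 2 = k ^ 2 → s ≠ 0 ∧ s ^ 2 ≤ k ^ 2 := by
    intro r s k hk hrs
    have hk2 : 0 < k ^ 2 := by positivity
    have hs : s ≠ 0 := by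
      rintro rfl
      rw [← hrs] at hk2
      simp at hk2
    have hr : r ≠ 0 := by
      rintro rfl
      rw [← hrs] at hk2
      simp at hk2
    refine ⟨hs, ?_⟩
    rw [← hrs]
    have h1 : 1 ≤ r ^ 2 := by
      have : 0 < r ^ 2 := by positivity
      omega
    nlinarith [sq_nonneg s]
  rcases Int.even_or_odd v with hve | hvo
  · -- v even
    obtain ⟨v', rfl⟩ := hve.two_dvd
    have hv'0 : v' ≠ 0 := by
      rintro rfl
      exact hv (mul_zero 2)
    have huo : Odd u := by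
      rw [← Int.not_even_iff_odd]
      intro hue
      exact cop_false huv Int.prime_two hue.two_dvd (dvd_mul_right 2 v')
    have huv' : IsCoprime u v' := huv.of_isCoprime_of_dvd_right (dvd_mul_left _ _)
    have hwo : Odd w := by
      have h1 : Odd (w ^ 2) := by
        rw [h]
        have h2 : u ^ 4 - 11 * u ^ 2 * (2 * v') ^ 2 - (2 * v') ^ 4 =
            u ^ 4 - 2 * (22 * u ^ 2 * v' ^ 2 + 8 * v' ^ 4) := by ring
        rw [h2]
        exact huo.pow.sub_even (even_two_mul _)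
      rwa [Int.odd_pow' two_ne_zero] at h1
    have hPo : Odd (u ^ 2 - 22 * v' ^ 2) := by
      have h2 : u ^ 2 - 22 * v' ^ 2 = u ^ 2 - 2 * (11 * v' ^ 2) := by ring
      rw [h2]
      exact huo.pow.sub_even (even_two_mul _)
    obtain ⟨a, ha⟩ := (hPo.sub_odd hwo).two_dvd
    obtain ⟨b, hb⟩ := (hPo.add_odd hwo).two_dvd
    have hab : a * b = 125 * v' ^ 4 := by
      have h1 : (2 * a) * (2 * b) = 4 * (125 * v' ^ 4) := by
        rw [← ha, ← hb]
        linear_combination -h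
      linarith
    have hsum : a + b = u ^ 2 - 22 * v' ^ 2 := by linarith
    have hpos : 0 < a ∧ 0 < b := by
      have h1 : 0 < a * b := by rw [hab]; positivity
      rcases pos_and_pos_or_neg_and_neg_of_mul_pos h1 with h2 | h2
      · exact h2
      · exfalso
        nlinarith
    have hcop : IsCoprime a b := by
      apply cop hpos.1.ne'
      intro z hz h1 h2
      have h3 : z ∣ u ^ 2 - 22 * v' ^ 2 := by rw [← hsum]; exact dvd_add h1 h2
      have h4 : z ∣ 125 * v' ^ 4 := by rw [← hab]; exact dvd_mul_of_dvd_left h1 _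
      rcases hz.dvd_or_dvd h4 with h5 | h5
      · have h6 : z ∣ (5 : ℤ) ^ 3 := by norm_num; exact h5
        have h7 := (hz.associated_of_dvd prime5 (hz.dvd_of_dvd_pow h6)).symm.dvd
        exact val_sub_ne huv' (h7.trans h3)
      · have h6 := hz.dvd_of_dvd_pow h5
        have h7 : z ∣ u ^ 2 := by
          have := dvd_add h3 (dvd_mul_of_dvd_right (dvd_pow h6 two_ne_zero) 22)
          rwa [sub_add_cancel] at this
        exact cop_false huv' hz (hz.dvd_of_dvd_pow h7) h6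
    obtain ⟨r, s, hrs, h1, h2⟩ := split125 hcop hpos.1 hpos.2 hab
    obtain ⟨hs0, hsv⟩ := hsle r s v' hv'0 h1
    refine ⟨r, s, u, hrs, hs0, by nlinarith, ?_⟩
    linear_combination 22 * h1 - h2 + hsum
  · -- v odd
    obtain ⟨c, hc⟩ := id hvo
    have hPo : Odd (2 * u ^ 2 - 11 * v ^ 2) := by
      have h11 : Odd (11 * v ^ 2) := Odd.mul (by decide) hvo.pow
      exact (even_two_mul _).sub_odd h11
    have hao : Odd (2 * u ^ 2 - 11 * v ^ 2 - 2 * w) := hPo.sub_even (even_two_mul _)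
    obtain ⟨a, ha⟩ : ∃ a, a = 2 * u ^ 2 - 11 * v ^ 2 - 2 * w := ⟨_, rfl⟩
    obtain ⟨b, hb⟩ : ∃ b, b = 2 * u ^ 2 - 11 * v ^ 2 + 2 * w := ⟨_, rfl⟩
    rw [← ha] at hao
    have hab : a * b = 125 * v ^ 4 := by
      rw [ha, hb]
      linear_combination -4 * h
    have hsum : a + b = 2 * (2 * u ^ 2 - 11 * v ^ 2) := by rw [ha, hb]; ring
    have hpos : 0 < a ∧ 0 < b := by
      have h1 : 0 < a * b := by rw [hab]; positivity
      rcases pos_and_pos_or_neg_and_neg_of_mul_pos h1 with h2 | h2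
      · exact h2
      · exfalso
        nlinarith
    have hcop : IsCoprime a b := by
      apply cop hpos.1.ne'
      intro z hz h1 h2
      have hz2 : ¬ z ∣ 2 := by
        intro h6
        rw [← Int.not_even_iff_odd] at hao
        exact hao (even_iff_two_dvd.2
          (((hz.associated_of_dvd Int.prime_two h6).symm.dvd).trans h1))
      have h3 : z ∣ 2 * u ^ 2 - 11 * v ^ 2 := by
        have := dvd_add h1 h2
        rw [hsum] at this
        exact (hz.dvd_or_dvd this).resolve_left hz2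
      have h4 : z ∣ 125 * v ^ 4 := by rw [← hab]; exact dvd_mul_of_dvd_left h1 _
      rcases hz.dvd_or_dvd h4 with h5 | h5
      · have h6 : z ∣ (5 : ℤ) ^ 3 := by norm_num; exact h5
        have h7 := (hz.associated_of_dvd prime5 (hz.dvd_of_dvd_pow h6)).symm.dvd
        have h8 : (5 : ℤ) ∣ 2 * u ^ 2 - v ^ 2 := by
          have h9 : 2 * u ^ 2 - v ^ 2 = (2 * u ^ 2 - 11 * v ^ 2) + 5 * (2 * v ^ 2) := by ring
          rw [h9]
          exact dvd_add (h7.trans h3) (dvd_mul_right _ _)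
        obtain ⟨h9, h10⟩ := mod5 h8
        exact cop_false huv prime5 h9 h10
      · have h6 := hz.dvd_of_dvd_pow h5
        have h7 : z ∣ 2 * u ^ 2 := by
          have := dvd_add h3 (dvd_mul_of_dvd_right (dvd_pow h6 two_ne_zero) 11)
          rwa [sub_add_cancel] at this
        exact cop_false huv hz (hz.dvd_of_dvd_pow ((hz.dvd_or_dvd h7).resolve_left hz2)) h6
    obtain ⟨r, s, hrs, h1, h2⟩ := split125 hcop hpos.1 hpos.2 hab
    obtain ⟨hs0, hsv⟩ := hsle r s v hv h1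
    refine ⟨r, s, 2 * u, hrs, hs0, hsv, ?_⟩
    linear_combination 22 * h1 - h2 + hsum

/-- The quartic. -/
theorem quartic (n : ℕ) : ∀ {X Y Z : ℤ}, Y.natAbs = n → IsCoprime X Y →
    X ^ 4 + 22 * X ^ 2 * Y ^ 2 + 125 * Y ^ 4 = Z ^ 2 → Y = 0 := by
  induction n using Nat.strong_induction_on with
  | _ n ih =>
    intro X Y Z hn hXY h
    by_contra hY
    obtain ⟨p, q, hpq, h1, h2⟩ := step1 hXY hY h
    have hY2 : 0 < Y ^ 2 := by positivity
    have hq : q ≠ 0 := by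
      rintro rfl
      rw [← h1] at hY2
      simp at hY2
    obtain ⟨r, s, Z', hrs, hs, hsq, h3⟩ := step2 hpq hq h2
    have hq2 : 0 < q ^ 2 := by positivity
    have hp : 1 < p ^ 2 := by
      by_contra hcon
      push Not at hcon
      have h5 : 0 < q ^ 4 := by positivity
      have h6 : p ^ 4 ≤ p ^ 2 * q ^ 2 := by
        have h7 : (1 : ℤ) ≤ q ^ 2 := hq2
        have h8 : p ^ 4 = p ^ 2 * p ^ 2 := by ring
        rw [h8]
        exact mul_le_mul_of_nonneg_left (hcon.trans h7) (sq_nonneg p)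
      nlinarith [sq_nonneg X, mul_nonneg (sq_nonneg p) (sq_nonneg q)]
    have hlt : s ^ 2 < Y ^ 2 := by
      rw [← h1]
      nlinarith
    have hlt' : s.natAbs < n := by
      rw [← hn]
      exact Int.natAbs_lt_iff_sq_lt.2 hlt
    exact hs (ih _ hlt' rfl hrs h3)

theorem sq_sq_of_mul {a b k : ℤ} (hab : IsCoprime a b) (ha : 0 < a) (hb : 0 < b)
    (h : a * b = k ^ 2) : ∃ r s : ℤ, a = r ^ 2 ∧ b = s ^ 2 := by
  obtain ⟨r, hr⟩ := sq_of_mul hab ha h
  obtain ⟨s, hs⟩ := sq_of_mul hab.symm hb (by rw [mul_comm]; exact h)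
  exact ⟨r, s, hr, hs⟩

theorem not_dvd_of_sq {n r : ℤ} (h : n = r ^ 2) (h5 : ¬ (5 : ℤ) ∣ n) : ¬ (5 : ℤ) ∣ r := by
  intro h1
  apply h5
  rw [h]
  exact dvd_pow h1 two_ne_zero

/-- coprimality of `n` and `c D²` modulo `n`. -/
theorem cop_quad {n D c x : ℤ} (hn : n ≠ 0) (hnD : IsCoprime n D) (hc : IsCoprime n c) :
    IsCoprime n (n * x + c * D ^ 2) := by
  have h1 : IsCoprime n (c * D ^ 2) := hc.mul_right hnD.pow_right
  rwa [add_comm, IsCoprime.add_mul_left_right_iff]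

theorem mod5_false {r e z a b : ℤ} (hr : ¬ (5 : ℤ) ∣ r) (he : ¬ (5 : ℤ) ∣ e)
    (h : 5 * a + 22 * (r ^ 2 * e ^ 2) + 5 * b = z ^ 2) : False := by
  have h1 : (5 : ℤ) ∣ 2 * (r * e) ^ 2 - z ^ 2 := by
    rw [← h]
    exact ⟨-(a + b + 4 * (r ^ 2 * e ^ 2)), by ring⟩
  obtain ⟨h2, -⟩ := mod5 h1
  rcases prime5.dvd_or_dvd h2 with h3 | h3
  · exact hr h3
  · exact he h3

/-- The integral form. -/
theorem int_form {N D k : ℤ} (hD : 0 < D) (hND : IsCoprime N D)
    (h : N * D * (N ^ 2 + 22 * (N * D) + 125 * D ^ 2) = k ^ 2) : N = 0 := by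
  by_contra hN0
  have hQpos : 0 < N ^ 2 + 22 * (N * D) + 125 * D ^ 2 := by
    have h1 : N ^ 2 + 22 * (N * D) + 125 * D ^ 2 = (N + 11 * D) ^ 2 + 4 * D ^ 2 := by ring
    rw [h1]
    positivity
  -- `D` is a square
  have hDc : IsCoprime D (N * (N ^ 2 + 22 * (N * D) + 125 * D ^ 2)) := by
    refine hND.symm.mul_right ?_
    have h1 : N ^ 2 + 22 * (N * D) + 125 * D ^ 2 = N ^ 2 + D * (22 * N + 125 * D) := by ring
    rw [h1, IsCoprime.add_mul_left_right_iff]
    exact hND.symm.pow_right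
  have hk0 : 0 < N * (N ^ 2 + 22 * (N * D) + 125 * D ^ 2) := by
    have h1 : 0 < D * (N * (N ^ 2 + 22 * (N * D) + 125 * D ^ 2)) := by
      have h2 : D * (N * (N ^ 2 + 22 * (N * D) + 125 * D ^ 2)) = k ^ 2 := by rw [← h]; ring
      rw [h2]
      have hk : k ≠ 0 := by
        rintro rfl
        have h3 : N * D * (N ^ 2 + 22 * (N * D) + 125 * D ^ 2) = 0 := by rw [h]; ring
        rcases mul_eq_zero.1 h3 with h4 | h4
        · rcases mul_eq_zero.1 h4 with h5 | h5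
          · exact hN0 h5
          · omega
        · omega
      positivity
    exact (pos_iff_pos_of_mul_pos h1).1 hD
  have hNpos : 0 < N := (pos_iff_pos_of_mul_pos hk0).2 hQpos
  obtain ⟨e, k₁, he, hk₁⟩ := sq_sq_of_mul hDc hD hk0 (k := k) (by rw [← h]; ring)
  have he0 : e ≠ 0 := by
    rintro rfl
    rw [he] at hD
    norm_num at hD
  have hre : ∀ {r n : ℤ}, n = r ^ 2 → IsCoprime n D → IsCoprime r e := by
    intro r n hr hn
    rw [hr, he] at hn
    exact (IsCoprime.pow_iff (by norm_num) (by norm_num)).1 hn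
  by_cases h5 : (5 : ℤ) ∣ N
  · obtain ⟨N₁, rfl⟩ := h5
    have h5D : ¬ (5 : ℤ) ∣ D := fun h1 => cop_false hND prime5 (dvd_mul_right _ _) h1
    have h5e : ¬ (5 : ℤ) ∣ e := not_dvd_of_sq he h5D
    have hN₁pos : 0 < N₁ := by omega
    have hN₁D : IsCoprime N₁ D := hND.of_isCoprime_of_dvd_left (dvd_mul_left _ _)
    -- divide by 25
    obtain ⟨k₂, hk₂⟩ : (5 : ℤ) ∣ k₁ := by
      apply prime5.dvd_of_dvd_pow (n := 2)
      rw [← hk₁]
      exact dvd_mul_of_dvd_left (dvd_mul_right _ _) _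
    have e1 : N₁ * (N₁ * (5 * N₁ + 22 * D) + 25 * D ^ 2) = k₂ ^ 2 := by
      have h2 : 25 * (N₁ * (N₁ * (5 * N₁ + 22 * D) + 25 * D ^ 2)) = 25 * k₂ ^ 2 := by
        rw [hk₂] at hk₁
        linear_combination hk₁
      linarith
    by_cases h51 : (5 : ℤ) ∣ N₁
    · obtain ⟨N₂, rfl⟩ := h51
      have hN₂pos : 0 < N₂ := by omega
      have hN₂D : IsCoprime N₂ D := hN₁D.of_isCoprime_of_dvd_left (dvd_mul_left _ _)
      obtain ⟨k₃, hk₃⟩ : (5 : ℤ) ∣ k₂ := by
        apply prime5.dvd_of_dvd_pow (n := 2)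
        rw [← e1]
        exact dvd_mul_of_dvd_left (dvd_mul_right _ _) _
      have e2 : N₂ * (N₂ * (25 * N₂ + 22 * D) + 5 * D ^ 2) = k₃ ^ 2 := by
        have h2 : 25 * (N₂ * (N₂ * (25 * N₂ + 22 * D) + 5 * D ^ 2)) = 25 * k₃ ^ 2 := by
          rw [hk₃] at e1
          linear_combination e1
        linarith
      by_cases h52 : (5 : ℤ) ∣ N₂
      · obtain ⟨N₃, rfl⟩ := h52
        have hN₃pos : 0 < N₃ := by omega
        have hN₃D : IsCoprime N₃ D := hN₂D.of_isCoprime_of_dvd_left (dvd_mul_left _ _)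
        obtain ⟨k₄, hk₄⟩ : (5 : ℤ) ∣ k₃ := by
          apply prime5.dvd_of_dvd_pow (n := 2)
          rw [← e2]
          exact dvd_mul_of_dvd_left (dvd_mul_right _ _) _
        have e3 : N₃ * (N₃ * (125 * N₃ + 22 * D) + 1 * D ^ 2) = k₄ ^ 2 := by
          have h2 : 25 * (N₃ * (N₃ * (125 * N₃ + 22 * D) + 1 * D ^ 2)) = 25 * k₄ ^ 2 := by
            rw [hk₄] at e2
            linear_combination e2
          linarith
        obtain ⟨r, z, hr, hz⟩ := sq_sq_of_mul
          (cop_quad (x := 125 * N₃ + 22 * D) hN₃pos.ne' hN₃D isCoprime_one_right) hN₃pos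
          (by positivity) e3
        have h1 := quartic _ rfl (hre hr hN₃D).symm (Z := z) (by
          rw [← hz, hr, he]; ring)
        rw [hr, h1] at hN₃pos
        norm_num at hN₃pos
      · have hc : IsCoprime N₂ 5 := ((prime5.coprime_iff_not_dvd).2 h52).symm
        obtain ⟨r, z, hr, hz⟩ := sq_sq_of_mul
          (cop_quad (x := 25 * N₂ + 22 * D) hN₂pos.ne' hN₂D hc) hN₂pos (by positivity) e2
        refine mod5_false (a := 5 * r ^ 4) (b := e ^ 4) (z := z) (not_dvd_of_sq hr h52) h5e ?_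
        rw [← hz, hr, he]; ring
    · have hc : IsCoprime N₁ 25 := by
        have h3 : (25 : ℤ) = 5 ^ 2 := by norm_num
        rw [h3]
        exact ((prime5.coprime_iff_not_dvd).2 h51).symm.pow_right
      obtain ⟨r, z, hr, hz⟩ := sq_sq_of_mul
        (cop_quad (x := 5 * N₁ + 22 * D) hN₁pos.ne' hN₁D hc) hN₁pos (by positivity) e1
      refine mod5_false (a := r ^ 4) (b := 5 * e ^ 4) (z := z) (not_dvd_of_sq hr h51) h5e ?_
      rw [← hz, hr, he]; ring
  · have hc : IsCoprime N 125 := by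
      have h3 : (125 : ℤ) = 5 ^ 3 := by norm_num
      rw [h3]
      exact ((prime5.coprime_iff_not_dvd).2 h5).symm.pow_right
    have e1 : N * (N * (N + 22 * D) + 125 * D ^ 2) = k₁ ^ 2 := by rw [← hk₁]; ring
    obtain ⟨r, z, hr, hz⟩ := sq_sq_of_mul (cop_quad (x := N + 22 * D) hNpos.ne' hND hc) hNpos
      (by positivity) e1
    exact he0 (quartic _ rfl (hre hr hND) (Z := z) (by rw [← hz, hr, he]; ring))

/-- The rational points of `y² = h (h² + 22 h + 125)`. -/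
theorem rat_form {h w : ℚ} (hw : h * (h ^ 2 + 22 * h + 125) = w ^ 2) : h = 0 := by
  have hD : (0 : ℤ) < h.den := by exact_mod_cast h.den_pos
  have hD0 : (h.den : ℚ) ≠ 0 := by exact_mod_cast h.den_pos.ne'
  have hh : h * h.den = h.num := Rat.mul_den_eq_num h
  have hsq : IsSquare (((h.num * h.den * (h.num ^ 2 + 22 * (h.num * h.den) + 125 * h.den ^ 2) :
      ℤ)) : ℚ) := by
    refine ⟨w * h.den ^ 2, ?_⟩
    push_cast
    rw [← hh]
    linear_combination (h.den : ℚ) ^ 4 * hw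
  rw [Rat.isSquare_intCast_iff] at hsq
  obtain ⟨k, hk⟩ := hsq
  have hcop : IsCoprime h.num (h.den : ℤ) := by
    rw [Int.isCoprime_iff_gcd_eq_one]
    exact h.reduced
  have := int_form hD hcop (k := k) (by rw [hk, sq])
  exact Rat.num_eq_zero.1 this

end Fermat.Agent.H23.K1
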