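import Fermat.Agent.S51
import Fermat.Agent.H26_FreyBasics
import Fermat.Agent.H23.K1.Descent

/-!
# Elliptic curves over `ℚ` whose discriminant is a square have irreducible `5`-torsion
-/

set_option autoImplicit false

namespace Fermat.Agent.H23.K1

open WeierstrassCurve WeierstrassCurve.Affine WeierstrassCurve.Affine.Point

local notation "Kbar" => AlgebraicClosure ℚ

theorem key_short {A B S T d : ℚ} (h1 : S * (S ^ 2 - 4 * T) = 2 * T * S + 2 * A * S + 4 * B)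
    (h2 : T * (S ^ 2 - 4 * T) = T ^ 2 - 2 * A * T - 4 * B * S + A ^ 2)
    (hd : -16 * (4 * A ^ 3 + 27 * B ^ 2) = d ^ 2) : d = 0 := by
  have hB : B = (S ^ 3 - 6 * T * S - 2 * A * S) / 4 := by linear_combination -(1 / 4) * h1
  have hQ : A ^ 2 + 2 * A * (S ^ 2 - T) - S ^ 4 + 5 * S ^ 2 * T + 5 * T ^ 2 = 0 := by
    rw [hB] at h2
    linear_combination -h2
  have hkey : (4 * A - 7 * S ^ 2 + 40 * T) * (S ^ 2 - 4 * T) ^ 2 = d ^ 2 := by
    rw [← hd, hB]
    linear_combination (64 * A - 20 * S ^ 2 + 128 * T) * hQ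
  by_contra hd0
  have hD : S ^ 2 - 4 * T ≠ 0 := by
    intro h
    rw [h] at hkey
    apply hd0
    have : d ^ 2 = 0 := by rw [← hkey]; ring
    exact pow_eq_zero_iff (by norm_num) |>.1 this
  have hh : (d / (S ^ 2 - 4 * T)) ^ 2 = 4 * A - 7 * S ^ 2 + 40 * T := by
    rw [div_pow, div_eq_iff (pow_ne_zero 2 hD), hkey]
  have h0 : (4 * A - 7 * S ^ 2 + 40 * T) / (S ^ 2 - 4 * T) = 0 := by
    apply rat_form (w := 6 * S * (d / (S ^ 2 - 4 * T)) / (S ^ 2 - 4 * T))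
    have e1 : (6 * S * (d / (S ^ 2 - 4 * T)) / (S ^ 2 - 4 * T)) ^ 2 =
        36 * S ^ 2 * (4 * A - 7 * S ^ 2 + 40 * T) / (S ^ 2 - 4 * T) ^ 2 := by
      rw [div_pow, mul_pow, mul_pow, hh]
      norm_num
    rw [e1]
    have e2 : (4 * A - 7 * S ^ 2 + 40 * T) ^ 2 + 22 * (4 * A - 7 * S ^ 2 + 40 * T) *
        (S ^ 2 - 4 * T) + 125 * (S ^ 2 - 4 * T) ^ 2 = 36 * S ^ 2 * (S ^ 2 - 4 * T) := by
      linear_combination 16 * hQ
    have e3 : ((4 * A - 7 * S ^ 2 + 40 * T) / (S ^ 2 - 4 * T)) ^ 2 +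
        22 * ((4 * A - 7 * S ^ 2 + 40 * T) / (S ^ 2 - 4 * T)) + 125 =
        36 * S ^ 2 / (S ^ 2 - 4 * T) := by
      field_simp
      linear_combination e2
    rw [e3]
    field_simp
  rw [div_eq_zero_iff] at h0
  rcases h0 with h0 | h0
  · rw [h0, zero_mul] at hkey
    exact hd0 (pow_eq_zero_iff (by norm_num) |>.1 hkey.symm)
  · exact hD h0

/-- The relations of a rational subgroup of order five force the discriminant not to be a
nonzero square. -/
theorem key (E : WeierstrassCurve ℚ) {s p δ : ℚ}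
    (h1 : s * (s ^ 2 - 4 * p) = 2 * p * s + E.b₂ * p + E.b₄ * s + E.b₆)
    (h2 : p * (s ^ 2 - 4 * p) = p ^ 2 - E.b₄ * p - E.b₆ * s - E.b₈)
    (hδ : E.Δ = δ ^ 2) : δ = 0 := by
  have hb8 := E.b_relation
  have hc := E.c_relation
  have h := key_short (A := -27 * E.c₄) (B := -54 * E.c₆) (S := 36 * s + 6 * E.b₂)
    (T := 1296 * p + 108 * E.b₂ * s + 9 * E.b₂ ^ 2) (d := 6 ^ 6 * δ) ?_ ?_ ?_
  · have h6 : (6 : ℚ) ^ 6 ≠ 0 := by norm_num
    exact (mul_eq_zero.1 h).resolve_left h6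
  · rw [WeierstrassCurve.c₄, WeierstrassCurve.c₆]
    linear_combination 46656 * h1
  · rw [WeierstrassCurve.c₄, WeierstrassCurve.c₆]
    linear_combination 1679616 * h2 + 139968 * E.b₂ * h1 - 419904 * hb8
  · have e1 : (6 ^ 6 * δ : ℚ) ^ 2 = 6 ^ 12 * E.Δ := by rw [hδ]; ring
    rw [e1]
    linear_combination (-1259712) * hc

/-- An elliptic curve over `ℚ` whose discriminant is a nonzero square has irreducible
`5`-torsion. -/
theorem irreducible_five (E : WeierstrassCurve ℚ) {δ : ℚ} (hδ : E.Δ = δ ^ 2) (hδ0 : δ ≠ 0) :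
    GaloisRepIsIrreducible (K := Kbar) ℚ E 5 := by
  by_contra hcon
  have hΔ : (E⁄Kbar).Δ ≠ 0 := by
    change (E.map (algebraMap ℚ Kbar)).Δ ≠ 0
    rw [map_Δ, hδ, map_pow]
    exact pow_ne_zero 2 ((map_ne_zero _).2 hδ0)
  obtain ⟨s, p, h1, h2⟩ := S51.five_reducible (E := E) hΔ hcon
  exact hδ0 (key E h1 h2 hδ)

/-- An integral Weierstrass curve whose discriminant is a nonzero square in `ℚ` has irreducible
`5`-torsion. -/
theorem modRepIsIrreducible_five (W : WeierstrassCurve ℤ) {δ : ℚ} (hδ : (W.Δ : ℚ) = δ ^ 2)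
    (hΔ : W.Δ ≠ 0) : W.ModRepIsIrreducible 5 := by
  refine irreducible_five (W.map (Int.castRingHom ℚ)) (δ := δ) ?_ ?_
  · rw [map_Δ]
    exact hδ
  · rintro rfl
    apply hΔ
    have : (W.Δ : ℚ) = 0 := by rw [hδ]; ring
    exact_mod_cast this

/-- **K1**: the `5`-torsion of the Frey curve is irreducible. -/
theorem frey_irr_five (P : FreyPackage) : P.freyCurveInt.ModRepIsIrreducible 5 := by
  refine modRepIsIrreducible_five P.freyCurveInt (δ := ((P.a * P.b * P.c : ℤ) : ℚ) ^ P.p / 2 ^ 4)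
    ?_ (H26.freyCurveInt_Δ_ne_zero P)
  have h := H26.freyCurveInt_Δ P
  have h1 : (2 : ℚ) ^ 8 * (P.freyCurveInt.Δ : ℚ) = ((P.a * P.b * P.c : ℤ) : ℚ) ^ (2 * P.p) := by
    exact_mod_cast h
  rw [div_pow, ← pow_mul, mul_comm P.p 2, ← h1]
  norm_num

end Fermat.Agent.H23.K1
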